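import Mathlib

set_option autoImplicit false

/-! Bol's identity for the weight `-n` slash action. -/

namespace Fermat.Agent.S22Main

open UpperHalfPlane Derivative
open scoped ModularForm Manifold MatrixGroups

noncomputable section

/-- iterates of `D` preserve holomorphy -/
theorem mdiff_iterD {F : ℍ → ℂ} (hF : MDiff F) (m : ℕ) : MDiff (D^[m] F) := by
  induction m with
  | zero => simpa using hF
  | succ m ih =>
    rw [Function.iterate_succ_apply']
    exact normalizedDerivOfComplex_mdifferentiable ih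

/-- the function `τ ↦ denom g τ`. -/
def den (g : GL (Fin 2) ℝ) : ℍ → ℂ := fun τ => denom g τ

theorem mdiff_den (g : GL (Fin 2) ℝ) : MDiff (den g) := mdifferentiable_denom g

theorem D_den (g : GL (Fin 2) ℝ) :
    D (den g) = fun _ => (2 * Real.pi * Complex.I)⁻¹ * (g 1 0 : ℂ) := by
  ext z
  simp only [normalizedDerivOfComplex]
  congr 1
  have h1 : (den g ∘ ofComplex) =ᶠ[nhds (z : ℂ)] fun w => (g 1 0 : ℂ) * w + (g 1 1 : ℂ) := by
    filter_upwards [isOpen_upperHalfPlaneSet.mem_nhds z.im_pos] with w hw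
    simp [den, denom, ofComplex_apply_of_im_pos hw]
  rw [h1.deriv_eq]
  simp

theorem iterD_smul (c : ℂ) {F : ℍ → ℂ} (hF : MDiff F) (m : ℕ) :
    D^[m] (c • F) = c • D^[m] F := by
  induction m with
  | zero => rfl
  | succ m ih =>
    rw [Function.iterate_succ_apply', Function.iterate_succ_apply', ih,
      normalizedDerivOfComplex_smul _ _ (mdiff_iterD hF m)]

theorem iterD_add {F G : ℍ → ℂ} (hF : MDiff F) (hG : MDiff G) (m : ℕ) :
    D^[m] (F + G) = D^[m] F + D^[m] G := by
  induction m with
  | zero => rfl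
  | succ m ih =>
    rw [Function.iterate_succ_apply', Function.iterate_succ_apply', Function.iterate_succ_apply', ih,
      normalizedDerivOfComplex_add _ _ (mdiff_iterD hF m) (mdiff_iterD hG m)]

theorem iterD_sub {F G : ℍ → ℂ} (hF : MDiff F) (hG : MDiff G) (m : ℕ) :
    D^[m] (F - G) = D^[m] F - D^[m] G := by
  induction m with
  | zero => rfl
  | succ m ih =>
    rw [Function.iterate_succ_apply', Function.iterate_succ_apply', Function.iterate_succ_apply', ih,
      normalizedDerivOfComplex_sub _ _ (mdiff_iterD hF m) (mdiff_iterD hG m)]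

/-- Leibniz rule for multiplication by the affine function `den g`. -/
theorem iterD_den_mul (g : GL (Fin 2) ℝ) {H : ℍ → ℂ} (hH : MDiff H) (m : ℕ) :
    D^[m + 1] (den g * H) = den g * D^[m + 1] H +
      (((m : ℂ) + 1) * ((2 * Real.pi * Complex.I)⁻¹ * (g 1 0 : ℂ))) • D^[m] H := by
  induction m with
  | zero =>
    simp only [Function.iterate_succ, Function.iterate_zero, Function.comp_apply, id_eq]
    rw [normalizedDerivOfComplex_mul _ _ (mdiff_den g) hH, D_den]
    ext z
    simp [Pi.add_apply, Pi.mul_apply, Pi.smul_apply]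
    ring
  | succ m ih =>
    rw [Function.iterate_succ_apply', ih]
    have h1 : MDiff (den g * D^[m + 1] H) := (mdiff_den g).mul (mdiff_iterD hH _)
    have h2 : MDiff ((((m : ℂ) + 1) * ((2 * Real.pi * Complex.I)⁻¹ * (g 1 0 : ℂ))) • D^[m] H) :=
      (mdiff_iterD hH m).const_smul _
    rw [normalizedDerivOfComplex_add _ _ h1 h2,
      normalizedDerivOfComplex_mul _ _ (mdiff_den g) (mdiff_iterD hH _),
      normalizedDerivOfComplex_smul _ _ (mdiff_iterD hH m), D_den,
      ← Function.iterate_succ_apply' D, ← Function.iterate_succ_apply' D]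
    ext z
    simp [Pi.add_apply, Pi.mul_apply, Pi.smul_apply]
    ring

/-- lowering the weight by one multiplies by `det⁻¹ * denom`. -/
theorem slash_pred (k : ℤ) (F : ℍ → ℂ) {g : GL (Fin 2) ℝ} (hg : 0 < g.val.det) :
    F ∣[k - 1] g = ((g.val.det : ℂ)⁻¹) • (den g * (F ∣[k] g)) := by
  have hdet : g.det.val = g.val.det := Matrix.GeneralLinearGroup.val_det_apply g
  have hdetℂ : (g.val.det : ℂ) ≠ 0 := Complex.ofReal_ne_zero.mpr hg.ne'
  ext z
  have hz := denom_ne_zero g z
  simp only [ModularForm.slash_apply, Pi.smul_apply, Pi.mul_apply, smul_eq_mul, den, hdet,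
    abs_of_pos hg]
  rw [show k - 1 - 1 = (k - 1) - 1 by ring, zpow_sub_one₀ hdetℂ (k - 1),
    show -(k - 1) = -k + 1 by ring, zpow_add_one₀ hz]
  ring

/-- **Bol's identity**. -/
theorem bol (n : ℕ) {g : GL (Fin 2) ℝ} (hg : 0 < g.val.det) :
    ∀ {F : ℍ → ℂ}, MDiff F →
    D^[n + 1] (F ∣[-(n : ℤ)] g) = ((g.val.det : ℂ)⁻¹ ^ (n + 1)) • ((D^[n + 1] F) ∣[(n : ℤ) + 2] g) := by
  have hdetℂ : (g.val.det : ℂ) ≠ 0 := Complex.ofReal_ne_zero.mpr hg.ne'
  induction n with
  | zero =>
    intro F hF
    simp only [Function.iterate_succ, Function.iterate_zero, Function.comp_apply, id_eq]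
    have := normalizedDerivOfComplex_slash (k := 0) hF hg
    ext z
    have h2 := congrFun this z
    simpa using h2
  | succ n ih =>
    intro F hF
    have hH : MDiff (F ∣[-(n : ℤ)] g) := hF.slash _ _
    have e1 : F ∣[-((n + 1 : ℕ) : ℤ)] g = ((g.val.det : ℂ)⁻¹) • (den g * (F ∣[-(n : ℤ)] g)) := by
      have := slash_pred (-(n : ℤ)) F hg
      rw [← this]
      congr 1
      push_cast
      ring
    rw [e1, iterD_smul _ ((mdiff_den g).mul hH), iterD_den_mul g hH (n + 1),
      Function.iterate_succ_apply' D (n + 1), ih hF]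
    have hG : MDiff (D^[n + 1] F) := mdiff_iterD hF _
    rw [normalizedDerivOfComplex_smul _ _ (hG.slash _ _),
      normalizedDerivOfComplex_slash hG hg, ← Function.iterate_succ_apply' D (n + 1)]
    have e2 : (D^[n + 1 + 1] F) ∣[((n + 1 : ℕ) : ℤ) + 2] g
        = ((g.val.det : ℂ)⁻¹) • (den g * ((D^[n + 1 + 1] F) ∣[(n : ℤ) + 2 + 2] g)) := by
      have := slash_pred ((n : ℤ) + 2 + 2) (D^[n + 1 + 1] F) hg
      rw [← this]
      congr 1
      push_cast
      ring
    rw [e2]
    ext z
    have hz : den g z ≠ 0 := denom_ne_zero g z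
    simp only [Pi.smul_apply, Pi.mul_apply, Pi.add_apply, smul_eq_mul]
    have hden : denom g z = den g z := rfl
    rw [hden]
    push_cast
    simp only [inv_pow]
    field_simp
    ring

end

end Fermat.Agent.S22Main
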