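import Mathlib
import Fermat.Agent.S22.Main.Bol

set_option autoImplicit false

/-! Polynomial functions on the upper half plane: the kernel of `D^[m]`. -/

namespace Fermat.Agent.S22Main

open UpperHalfPlane Derivative Filter Function Polynomial
open scoped ModularForm Manifold MatrixGroups Topology

noncomputable section

/-- the function on `ℍ` attached to a polynomial, as a linear map. -/
def polyFun : ℂ[X] →ₗ[ℂ] (ℍ → ℂ) where
  toFun P := fun τ => P.eval (τ : ℂ)
  map_add' P Q := by ext τ; simp
  map_smul' c P := by ext τ; simp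

@[simp] theorem polyFun_apply (P : ℂ[X]) (τ : ℍ) : polyFun P τ = P.eval (τ : ℂ) := rfl

theorem polyFun_injective : Function.Injective polyFun := by
  intro P Q h
  refine Polynomial.eq_of_infinite_eval_eq P Q ?_
  have hinf : (Set.range (fun τ : ℍ => (τ : ℂ))).Infinite := by
    have : Set.range (fun τ : ℍ => (τ : ℂ)) = {z : ℂ | 0 < z.im} := by
      ext z
      constructor
      · rintro ⟨τ, rfl⟩; exact τ.im_pos
      · intro hz; exact ⟨⟨z, hz⟩, rfl⟩
    rw [this]
    exact infinite_of_mem_nhds Complex.I (isOpen_upperHalfPlaneSet.mem_nhds (by simp))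
  refine hinf.mono ?_
  rintro _ ⟨τ, rfl⟩
  exact congrFun h τ

theorem mdiff_polyFun (P : ℂ[X]) : MDiff (polyFun P) := by
  intro z
  rw [UpperHalfPlane.mdifferentiableAt_iff]
  have h1 : (polyFun P ∘ ofComplex) =ᶠ[𝓝 (z : ℂ)] fun w => P.eval w := by
    filter_upwards [isOpen_upperHalfPlaneSet.mem_nhds z.im_pos] with w hw
    simp [ofComplex_apply_of_im_pos hw]
  exact (P.differentiableAt).congr_of_eventuallyEq h1

theorem D_polyFun (P : ℂ[X]) :
    D (polyFun P) = polyFun ((2 * Real.pi * Complex.I)⁻¹ • derivative P) := by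
  ext z
  simp only [normalizedDerivOfComplex]
  have h1 : (polyFun P ∘ ofComplex) =ᶠ[𝓝 (z : ℂ)] fun w => P.eval w := by
    filter_upwards [isOpen_upperHalfPlaneSet.mem_nhds z.im_pos] with w hw
    simp [ofComplex_apply_of_im_pos hw]
  rw [h1.deriv_eq, Polynomial.deriv]
  simp

theorem iterD_polyFun (P : ℂ[X]) (m : ℕ) :
    D^[m] (polyFun P) = polyFun (((2 * Real.pi * Complex.I)⁻¹ ^ m) • derivative^[m] P) := by
  induction m with
  | zero => simp
  | succ m ih =>
    rw [Function.iterate_succ_apply', ih, D_polyFun, Function.iterate_succ_apply' (⇑derivative),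
      Polynomial.derivative_smul, smul_smul, pow_succ']

/-- a holomorphic function with vanishing derivative is constant -/
theorem eq_const_of_D_eq_zero {G : ℍ → ℂ} (hG : MDiff G) (h : D G = 0) :
    ∃ c : ℂ, G = fun _ => c := by
  refine ⟨G I, ?_⟩
  ext z
  have hd : DifferentiableOn ℂ (G ∘ ofComplex) {z | 0 < z.im} :=
    UpperHalfPlane.mdifferentiable_iff.mp hG
  have hconv : IsPreconnected {z : ℂ | 0 < z.im} :=
    (convex_halfSpace_im_gt 0).isPreconnected
  have h0 : Set.EqOn (deriv (G ∘ ofComplex)) 0 {z : ℂ | 0 < z.im} := by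
    intro w hw
    have := congrFun h ⟨w, hw⟩
    simp only [normalizedDerivOfComplex, Pi.zero_apply] at this
    have h2 : (2 * (Real.pi : ℂ) * Complex.I)⁻¹ ≠ 0 := inv_ne_zero Complex.two_pi_I_ne_zero
    simpa [h2] using this
  have := isOpen_upperHalfPlaneSet.is_const_of_deriv_eq_zero hconv hd h0 z.im_pos I.im_pos
  simpa only [Function.comp_apply, ofComplex_apply] using this

/-- the kernel of `D^[m]` consists of polynomials of degree `< m`. -/
theorem exists_poly_of_iterD_eq_zero (m : ℕ) :
    ∀ {G : ℍ → ℂ}, MDiff G → D^[m] G = 0 → ∃ P : ℂ[X], P.degree < m ∧ G = polyFun P := by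
  induction m with
  | zero =>
    intro G _ h
    exact ⟨0, by simp, by simpa using h⟩
  | succ m ih =>
    intro G hG h
    rw [Function.iterate_succ_apply'] at h
    obtain ⟨c, hc⟩ := eq_const_of_D_eq_zero (mdiff_iterD hG m) h
    -- subtract a multiple of `X ^ m`
    set a : ℂ := c * (2 * Real.pi * Complex.I) ^ m / (m.factorial : ℂ) with ha
    have hXm : D^[m] (polyFun (C a * X ^ m)) = fun _ => c := by
      rw [iterD_polyFun]
      ext z
      have h3 : derivative^[m] (C a * X ^ m : ℂ[X]) = C (a * (m.factorial : ℂ)) := by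
        rw [Polynomial.iterate_derivative_C_mul, Polynomial.iterate_derivative_X_pow_eq_C_mul]
        simp [Nat.descFactorial_self]
      rw [h3]
      have h2 : (2 * (Real.pi : ℂ) * Complex.I) ≠ 0 := Complex.two_pi_I_ne_zero
      have h4 : (m.factorial : ℂ) ≠ 0 := by exact_mod_cast m.factorial_ne_zero
      simp only [polyFun_apply, eval_smul, eval_C, smul_eq_mul, ha, inv_pow]
      field_simp
    have h5 : D^[m] (G - polyFun (C a * X ^ m)) = 0 := by
      rw [iterD_sub hG (mdiff_polyFun _), hc, hXm, sub_self]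
    obtain ⟨P, hP, hGP⟩ := ih (hG.sub (mdiff_polyFun _)) h5
    refine ⟨P + C a * X ^ m, ?_, ?_⟩
    · refine lt_of_le_of_lt (Polynomial.degree_add_le _ _) (max_lt ?_ ?_)
      · exact lt_trans hP (by exact_mod_cast Nat.lt_succ_self m)
      · exact lt_of_le_of_lt (Polynomial.degree_C_mul_X_pow_le _ _)
          (by exact_mod_cast Nat.lt_succ_self m)
    · rw [map_add, ← hGP]; simp

theorem tendsto_norm_coe_atImInfty : Tendsto (fun τ : ℍ => ‖(τ : ℂ)‖) atImInfty atTop := by
  have h1 : Tendsto (fun τ : ℍ => τ.im) atImInfty atTop := tendsto_comap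
  refine tendsto_atTop_mono (fun τ => ?_) h1
  exact le_trans (le_abs_self _) (Complex.abs_im_le_norm _)

/-- a polynomial function tending to zero at `i∞` vanishes. -/
theorem poly_eq_zero_of_isZeroAtImInfty {P : ℂ[X]} (h : IsZeroAtImInfty (polyFun P)) : P = 0 := by
  by_cases hdeg : 0 < P.degree
  · exfalso
    have h1 := P.tendsto_norm_atTop hdeg tendsto_norm_coe_atImInfty
    have h2 : Tendsto (fun τ : ℍ => ‖P.eval (τ : ℂ)‖) atImInfty (𝓝 0) := by
      have := (tendsto_zero_iff_norm_tendsto_zero.mp h)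
      simpa using this
    exact not_tendsto_nhds_of_tendsto_atTop h1 _ h2
  · have hC := Polynomial.eq_C_of_degree_le_zero (not_lt.mp hdeg)
    rw [hC] at h ⊢
    have h2 : Tendsto (fun _ : ℍ => P.coeff 0) atImInfty (𝓝 0) := by
      have : (polyFun (C (P.coeff 0)) : ℍ → ℂ) = fun _ => P.coeff 0 := by ext; simp
      rw [IsZeroAtImInfty, ZeroAtFilter, this] at h
      exact h
    have := tendsto_nhds_unique h2 tendsto_const_nhds
    rw [← this]; simp

/-- uniqueness of iterated primitives vanishing at `i∞`. -/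
theorem eq_of_iterD_eq {G₁ G₂ : ℍ → ℂ} (h₁ : MDiff G₁) (h₂ : MDiff G₂)
    (z₁ : IsZeroAtImInfty G₁) (z₂ : IsZeroAtImInfty G₂) (m : ℕ) (h : D^[m] G₁ = D^[m] G₂) :
    G₁ = G₂ := by
  have h0 : D^[m] (G₁ - G₂) = 0 := by rw [iterD_sub h₁ h₂, h, sub_self]
  obtain ⟨P, -, hP⟩ := exists_poly_of_iterD_eq_zero m (h₁.sub h₂) h0
  have hz : IsZeroAtImInfty (polyFun P) := by
    rw [← hP]
    have := Filter.Tendsto.sub z₁ z₂
    rw [sub_zero] at this
    exact this
  rw [poly_eq_zero_of_isZeroAtImInfty hz, map_zero] at hP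
  exact sub_eq_zero.mp hP

/-- a periodic polynomial function is constant. -/
theorem poly_eq_C_of_periodic {P : ℂ[X]} {h : ℝ} (hh : 0 < h)
    (hper : Function.Periodic (polyFun P ∘ ofComplex) h) : P = C (P.coeff 0) := by
  by_contra hne
  have hdeg : 0 < P.degree := by
    by_contra hd
    exact hne (Polynomial.eq_C_of_degree_le_zero (not_lt.mp hd))
  have hz : Tendsto (fun m : ℕ => ‖(Complex.I + m * h : ℂ)‖) atTop atTop := by
    have h1 : Tendsto (fun m : ℕ => (m : ℝ) * h) atTop atTop :=
      (tendsto_natCast_atTop_atTop).atTop_mul_const hh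
    refine tendsto_atTop_mono (fun m => ?_) h1
    have : ((Complex.I + m * h : ℂ)).re = m * h := by simp
    calc (m : ℝ) * h = ((Complex.I + m * h : ℂ)).re := this.symm
      _ ≤ |((Complex.I + m * h : ℂ)).re| := le_abs_self _
      _ ≤ _ := Complex.abs_re_le_norm _
  have h1 := P.tendsto_norm_atTop hdeg hz
  have h2 : ∀ m : ℕ, P.eval (Complex.I + m * h : ℂ) = P.eval Complex.I := by
    intro m
    have := hper.nat_mul m Complex.I
    have him : 0 < (Complex.I + m * h : ℂ).im := by simp
    have hI : 0 < (Complex.I).im := by simp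
    simpa [ofComplex_apply_of_im_pos him, ofComplex_apply_of_im_pos hI] using this
  simp only [h2] at h1
  exact not_tendsto_nhds_of_tendsto_atTop h1 _ tendsto_const_nhds

end

end Fermat.Agent.S22Main
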