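import Mathlib
import Fermat.Agent.S22.Main.Bol

set_option autoImplicit false

/-! Primitives of periodic holomorphic functions vanishing at `i∞`. -/

namespace Fermat.Agent.S22Main

open UpperHalfPlane Derivative Filter Function
open scoped ModularForm Manifold MatrixGroups Topology

noncomputable section

/-- holomorphic, `h`-periodic and vanishing at `i∞`. -/
structure CuspLike (h : ℝ) (g : ℍ → ℂ) : Prop where
  mdiff : MDiff g
  per : Function.Periodic (g ∘ ofComplex) h
  zero : IsZeroAtImInfty g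

theorem periodic_comp_ofComplex_of_qParam {h : ℝ} (hh : h ≠ 0) (ψ : ℂ → ℂ) :
    Function.Periodic ((fun τ : ℍ => ψ (Periodic.qParam h τ)) ∘ ofComplex) h := by
  intro w
  by_cases hw : 0 < w.im
  · have hw' : 0 < (w + h).im := by simpa using hw
    simp only [comp_apply, ofComplex_apply_of_im_pos hw', ofComplex_apply_of_im_pos hw]
    congr 1
    simp only [Periodic.qParam]
    have : 2 * (Real.pi : ℂ) * Complex.I * (w + h) / h
        = 2 * (Real.pi : ℂ) * Complex.I * w / h + 2 * Real.pi * Complex.I := by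
      have : (h : ℂ) ≠ 0 := by exact_mod_cast hh
      field_simp
    rw [this, Complex.exp_add, Complex.exp_two_pi_mul_I, mul_one]
  · have hw1 : w.im ≤ 0 := not_lt.mp hw
    have hw' : (w + h).im ≤ 0 := by simpa using hw1
    simp [ofComplex_apply_of_im_nonpos hw', ofComplex_apply_of_im_nonpos hw1]

theorem CuspLike.exists_primitive {h : ℝ} (hh : 0 < h) {g : ℍ → ℂ} (hg : CuspLike h g) :
    ∃ G, CuspLike h G ∧ D G = g := by
  set φ := cuspFunction h g with hφdef
  have hφ : DifferentiableOn ℂ φ (Metric.ball 0 1) :=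
    differentiableOn_cuspFunction_ball hh hg.per hg.mdiff hg.zero.isBoundedAtImInfty
  have hφ0 : φ 0 = 0 :=
    Function.Periodic.cuspFunction_zero_of_zero_at_inf hh
      (hg.zero.comp tendsto_comap_im_ofComplex)
  have hball : Metric.ball (0 : ℂ) 1 ∈ 𝓝 (0 : ℂ) := Metric.ball_mem_nhds 0 one_pos
  have hφ1 : DifferentiableOn ℂ (dslope φ 0) (Metric.ball 0 1) :=
    (Complex.differentiableOn_dslope hball).mpr hφ
  have hmul : ∀ q, q * dslope φ 0 q = φ q := by
    intro q
    have := sub_smul_dslope φ 0 q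
    simpa [hφ0] using this
  obtain ⟨ψ, hψ0, hψ⟩ := (hφ1.isExactOn_ball).with_val_at 0 0
  have hq1 : ∀ w : ℂ, 0 < w.im → Periodic.qParam h w ∈ Metric.ball (0 : ℂ) 1 := by
    intro w hw
    simpa using Periodic.norm_qParam_lt_one hh hw
  -- derivative of the candidate
  have hder : ∀ w : ℂ, 0 < w.im →
      HasDerivAt (fun w => (h : ℂ) * ψ (Periodic.qParam h w))
        ((2 * Real.pi * Complex.I) * φ (Periodic.qParam h w)) w := by
    intro w hw
    have hqd : HasDerivAt (Periodic.qParam h)
        (Periodic.qParam h w * (2 * Real.pi * Complex.I / h)) w := by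
      simpa only [id_eq, mul_one] using!
        (((hasDerivAt_id w).const_mul (2 * Real.pi * Complex.I)).div_const (h : ℂ)).cexp
    have h1 := ((hψ _ (hq1 w hw)).comp w hqd).const_mul (h : ℂ)
    refine HasDerivAt.congr_deriv h1 ?_
    rw [← hmul]
    have : (h : ℂ) ≠ 0 := by exact_mod_cast hh.ne'
    field_simp
  set G : ℍ → ℂ := fun τ => (h : ℂ) * ψ (Periodic.qParam h τ) with hG
  have hGev : ∀ z : ℍ, (G ∘ ofComplex) =ᶠ[𝓝 (z : ℂ)]
      fun w => (h : ℂ) * ψ (Periodic.qParam h w) := by
    intro z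
    filter_upwards [isOpen_upperHalfPlaneSet.mem_nhds z.im_pos] with w hw
    simp [hG, ofComplex_apply_of_im_pos hw]
  refine ⟨G, ⟨?_, ?_, ?_⟩, ?_⟩
  · intro z
    rw [UpperHalfPlane.mdifferentiableAt_iff]
    exact ((hder z z.im_pos).congr_of_eventuallyEq (hGev z)).differentiableAt
  · exact periodic_comp_ofComplex_of_qParam hh.ne' (fun q => (h : ℂ) * ψ q)
  · have hc : ContinuousAt ψ 0 := (hψ 0 (by simp)).continuousAt
    have h1 : Tendsto (fun τ : ℍ => ψ (Periodic.qParam h τ)) atImInfty (𝓝 (ψ 0)) :=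
      hc.tendsto.comp (qParam_tendsto_atImInfty hh)
    have h2 := h1.const_mul (h : ℂ)
    rw [hψ0, mul_zero] at h2
    exact h2
  · ext z
    simp only [normalizedDerivOfComplex]
    rw [((hder z z.im_pos).congr_of_eventuallyEq (hGev z)).deriv, hφdef,
      eq_cuspFunction z hh.ne' hg.per]
    have : (2 * (Real.pi : ℂ) * Complex.I) ≠ 0 := Complex.two_pi_I_ne_zero
    field_simp

/-- iterated primitives -/
theorem CuspLike.exists_iter_primitive {h : ℝ} (hh : 0 < h) (m : ℕ) :
    ∀ {g : ℍ → ℂ}, CuspLike h g → ∃ G, CuspLike h G ∧ D^[m] G = g := by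
  induction m with
  | zero => intro g hg; exact ⟨g, hg, rfl⟩
  | succ m ih =>
    intro g hg
    obtain ⟨G₁, hG₁, h1⟩ := hg.exists_primitive hh
    obtain ⟨G, hG, h2⟩ := ih hG₁
    exact ⟨G, hG, by rw [Function.iterate_succ_apply', h2, h1]⟩

end

end Fermat.Agent.S22Main
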