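import Mathlib
import Fermat.Agent.S22.Main.Poly

set_option autoImplicit false

/-! The action of matrices on polynomials of degree `≤ n`, and its integrality. -/

namespace Fermat.Agent.S22Main

open UpperHalfPlane Derivative Filter Function Polynomial
open scoped ModularForm Manifold MatrixGroups Topology

noncomputable section

/-- action of a real matrix on complex polynomials (of degree `≤ n`). -/
def actC (n : ℕ) (g : GL (Fin 2) ℝ) (P : ℂ[X]) : ℂ[X] :=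
  ∑ j ∈ Finset.range (n + 1), C (P.coeff j) *
    ((C ((g 0 0 : ℝ) : ℂ) * X + C ((g 0 1 : ℝ) : ℂ)) ^ j *
      (C ((g 1 0 : ℝ) : ℂ) * X + C ((g 1 1 : ℝ) : ℂ)) ^ (n - j))

theorem σ_of_det_pos {g : GL (Fin 2) ℝ} (hg : 0 < g.val.det) (x : ℂ) : σ g x = x := by
  have hdet : g.det.val = g.val.det := Matrix.GeneralLinearGroup.val_det_apply g
  simp [σ, hdet, hg]

theorem polyFun_slash (n : ℕ) {g : GL (Fin 2) ℝ} (hg : 0 < g.val.det) {P : ℂ[X]}
    (hP : P.degree < (n + 1 : ℕ)) :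
    polyFun P ∣[-(n : ℤ)] g = ((g.val.det : ℂ)⁻¹ ^ (n + 1)) • polyFun (actC n g P) := by
  have hdet : g.det.val = g.val.det := Matrix.GeneralLinearGroup.val_det_apply g
  have hdetℂ : (g.val.det : ℂ) ≠ 0 := Complex.ofReal_ne_zero.mpr hg.ne'
  have hg' : 0 < g.det.val := by rw [hdet]; exact hg
  ext τ
  have hz := denom_ne_zero g τ
  rw [ModularForm.slash_apply, σ_of_det_pos hg, hdet, abs_of_pos hg]
  simp only [polyFun_apply, Pi.smul_apply, smul_eq_mul, actC, eval_finsetSum, eval_mul, eval_C,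
    eval_pow, eval_add, eval_X]
  rw [UpperHalfPlane.coe_smul_of_det_pos hg']
  have hnat : P.natDegree < n + 1 := by
    by_cases h0 : P = 0
    · simp [h0]
    · exact (Polynomial.natDegree_lt_iff_degree_lt h0).mpr hP
  rw [Polynomial.eval_eq_sum_range' hnat, Finset.sum_mul, Finset.sum_mul, Finset.mul_sum]
  refine Finset.sum_congr rfl fun j hj => ?_
  have hj' : j ≤ n := Nat.lt_succ_iff.mp (Finset.mem_range.mp hj)
  have e1 : ((g.val.det : ℝ) : ℂ) ^ (-(n : ℤ) - 1) = (g.val.det : ℂ)⁻¹ ^ (n + 1) := by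
    rw [show -(n : ℤ) - 1 = -((n + 1 : ℕ) : ℤ) by push_cast; ring, zpow_neg, zpow_natCast, inv_pow]
  have e2 : denom g τ ^ (-(-(n : ℤ))) = denom g τ ^ j * denom g τ ^ (n - j) := by
    rw [neg_neg, zpow_natCast, ← pow_add, Nat.add_sub_cancel' hj']
  rw [e1, e2, div_pow]
  have e3 : num g τ = ((g 0 0 : ℝ) : ℂ) * τ + ((g 0 1 : ℝ) : ℂ) := rfl
  have e4 : denom g τ = ((g 1 0 : ℝ) : ℂ) * τ + ((g 1 1 : ℝ) : ℂ) := rfl
  rw [← e3, ← e4]
  field_simp

/-- all entries are integers -/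
def IntEntries (g : GL (Fin 2) ℝ) : Prop := ∀ i j, ∃ a : ℤ, (g i j : ℝ) = a

/-- integrality of the action in the monomial basis. -/
theorem actC_coeff_int (n : ℕ) {g : GL (Fin 2) ℝ} (hg : IntEntries g) :
    ∃ A : ℕ → ℕ → ℤ, ∀ (P : ℂ[X]) (i : ℕ),
      (actC n g P).coeff i = ∑ j ∈ Finset.range (n + 1), (A i j : ℂ) * P.coeff j := by
  obtain ⟨a, ha⟩ := hg 0 0
  obtain ⟨b, hb⟩ := hg 0 1
  obtain ⟨c, hc⟩ := hg 1 0
  obtain ⟨d, hd⟩ := hg 1 1
  refine ⟨fun i j => (((C a * X + C b) ^ j * (C c * X + C d) ^ (n - j) : ℤ[X])).coeff i, ?_⟩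
  intro P i
  rw [actC, Polynomial.finsetSum_coeff]
  refine Finset.sum_congr rfl fun j _ => ?_
  rw [Polynomial.coeff_C_mul, mul_comm]
  congr 1
  have : ((C ((g 0 0 : ℝ) : ℂ) * X + C ((g 0 1 : ℝ) : ℂ)) ^ j *
      (C ((g 1 0 : ℝ) : ℂ) * X + C ((g 1 1 : ℝ) : ℂ)) ^ (n - j) : ℂ[X])
      = (((C a * X + C b) ^ j * (C c * X + C d) ^ (n - j) : ℤ[X])).map (Int.castRingHom ℂ) := by
    simp [ha, hb, hc, hd]
  rw [this, Polynomial.coeff_map]
  simp

end

end Fermat.Agent.S22Main
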