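import Mathlib
import Fermat.Prelude.Def_CuspForm_HeckeAlgebra
import Fermat.Prelude.Thm_CongruenceSubgroup_one_mem_strictPeriods_Gamma0
import Fermat.Agent.S22.Main.Primitive
import Fermat.Agent.S22.Main.Act

set_option autoImplicit false

/-! Eichler integrals and period polynomials of cusp forms on `Γ₀(N)`. -/

namespace Fermat.Agent.S22Main

open UpperHalfPlane Derivative Filter Function Polynomial Matrix.SpecialLinearGroup
open CongruenceSubgroup
open scoped ModularForm Manifold MatrixGroups Topology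

noncomputable section

variable (N : ℕ) [NeZero N] (n : ℕ)

theorem cuspLike_coe (f : CuspForm (Gamma0 N) ((n : ℤ) + 2)) : CuspLike 1 f :=
  ⟨CuspFormClass.holo f,
    SlashInvariantFormClass.periodic_comp_ofComplex f (one_mem_strictPeriods_Gamma0 N),
    CuspFormClass.zero_at_infty f⟩

/-- the Eichler integral: the `(n+1)`-fold primitive vanishing at `i∞`. -/
def eich (f : CuspForm (Gamma0 N) ((n : ℤ) + 2)) : ℍ → ℂ :=
  (CuspLike.exists_iter_primitive one_pos (n + 1) (cuspLike_coe N n f)).choose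

theorem eich_cuspLike (f : CuspForm (Gamma0 N) ((n : ℤ) + 2)) : CuspLike 1 (eich N n f) :=
  (CuspLike.exists_iter_primitive one_pos (n + 1) (cuspLike_coe N n f)).choose_spec.1

theorem iterD_eich (f : CuspForm (Gamma0 N) ((n : ℤ) + 2)) : D^[n + 1] (eich N n f) = f :=
  (CuspLike.exists_iter_primitive one_pos (n + 1) (cuspLike_coe N n f)).choose_spec.2

theorem isZero_add {F G : ℍ → ℂ} (hF : IsZeroAtImInfty F) (hG : IsZeroAtImInfty G) :
    IsZeroAtImInfty (F + G) := by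
  have := Filter.Tendsto.add hF hG
  rw [add_zero] at this
  exact this

theorem isZero_smul (c : ℂ) {F : ℍ → ℂ} (hF : IsZeroAtImInfty F) :
    IsZeroAtImInfty (c • F) := by
  have := Filter.Tendsto.const_smul hF c
  rw [smul_zero] at this
  exact this

theorem isZero_sum {ι : Type*} (s : Finset ι) {F : ι → ℍ → ℂ}
    (hF : ∀ i ∈ s, IsZeroAtImInfty (F i)) : IsZeroAtImInfty (∑ i ∈ s, F i) := by
  classical
  induction s using Finset.induction_on with
  | empty =>
    simp only [Finset.sum_empty]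
    exact tendsto_const_nhds
  | insert a s ha ih =>
    rw [Finset.sum_insert ha]
    exact isZero_add (hF a (Finset.mem_insert_self a s))
      (ih fun i hi => hF i (Finset.mem_insert_of_mem hi))

theorem mdiff_sum {ι : Type*} (s : Finset ι) {F : ι → ℍ → ℂ}
    (hF : ∀ i ∈ s, MDiff (F i)) : MDiff (∑ i ∈ s, F i) := by
  classical
  induction s using Finset.induction_on with
  | empty =>
    simp only [Finset.sum_empty]
    exact mdifferentiable_const
  | insert a s ha ih =>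
    rw [Finset.sum_insert ha]
    exact (hF a (Finset.mem_insert_self a s)).add
      (ih fun i hi => hF i (Finset.mem_insert_of_mem hi))

theorem iterD_zero (m : ℕ) : D^[m] (0 : ℍ → ℂ) = 0 := by
  have := iterD_smul (0 : ℂ) (F := (0 : ℍ → ℂ)) mdifferentiable_const m
  simpa using this

theorem iterD_sum {ι : Type*} (s : Finset ι) {F : ι → ℍ → ℂ}
    (hF : ∀ i ∈ s, MDiff (F i)) (m : ℕ) : D^[m] (∑ i ∈ s, F i) = ∑ i ∈ s, D^[m] (F i) := by
  classical
  induction s using Finset.induction_on with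
  | empty => simp only [Finset.sum_empty]; exact iterD_zero m
  | insert a s ha ih =>
    rw [Finset.sum_insert ha, Finset.sum_insert ha,
      iterD_add (hF a (Finset.mem_insert_self a s))
        (mdiff_sum s fun i hi => hF i (Finset.mem_insert_of_mem hi)),
      ih fun i hi => hF i (Finset.mem_insert_of_mem hi)]

/-- the Eichler integral as a linear map. -/
def eichL : CuspForm (Gamma0 N) ((n : ℤ) + 2) →ₗ[ℂ] (ℍ → ℂ) where
  toFun := eich N n
  map_add' f g := by
    refine eq_of_iterD_eq (eich_cuspLike N n _).mdiff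
      ((eich_cuspLike N n f).mdiff.add (eich_cuspLike N n g).mdiff)
      (eich_cuspLike N n _).zero
      (isZero_add (eich_cuspLike N n f).zero (eich_cuspLike N n g).zero) (n + 1) ?_
    rw [iterD_add (eich_cuspLike N n f).mdiff (eich_cuspLike N n g).mdiff, iterD_eich, iterD_eich,
      iterD_eich]
    rfl
  map_smul' c f := by
    refine eq_of_iterD_eq (eich_cuspLike N n _).mdiff
      ((eich_cuspLike N n f).mdiff.const_smul c)
      (eich_cuspLike N n _).zero
      (isZero_smul c (eich_cuspLike N n f).zero) (n + 1) ?_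
    rw [RingHom.id_apply, iterD_smul c (eich_cuspLike N n f).mdiff, iterD_eich, iterD_eich]
    rfl

@[simp] theorem eichL_apply (f : CuspForm (Gamma0 N) ((n : ℤ) + 2)) :
    eichL N n f = eich N n f := rfl

/-- slash by a matrix of positive determinant, as a linear map. -/
def slashL (k : ℤ) (g : GL (Fin 2) ℝ) (hg : 0 < g.val.det) : (ℍ → ℂ) →ₗ[ℂ] (ℍ → ℂ) where
  toFun F := F ∣[k] g
  map_add' F G := SlashAction.add_slash k g F G
  map_smul' c F := by
    rw [ModularForm.smul_slash, σ_of_det_pos hg]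
    rfl

@[simp] theorem slashL_apply (k : ℤ) (g : GL (Fin 2) ℝ) (hg : 0 < g.val.det) (F : ℍ → ℂ) :
    slashL k g hg F = F ∣[k] g := rfl

theorem sub_slash (k : ℤ) (g : GL (Fin 2) ℝ) (F G : ℍ → ℂ) :
    (F - G) ∣[k] g = F ∣[k] g - G ∣[k] g := by
  rw [sub_eq_add_neg, SlashAction.add_slash, SlashAction.neg_slash, ← sub_eq_add_neg]

theorem det_mapGL (γ : SL(2, ℤ)) : (mapGL ℝ γ : GL (Fin 2) ℝ).val.det = 1 := by
  rw [← Matrix.GeneralLinearGroup.val_det_apply]
  simp

theorem det_mapGL_pos (γ : SL(2, ℤ)) : 0 < (mapGL ℝ γ : GL (Fin 2) ℝ).val.det := by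
  rw [det_mapGL]; exact one_pos

theorem intEntries_mapGL (γ : SL(2, ℤ)) : IntEntries (mapGL ℝ γ) := by
  intro i j
  exact ⟨γ i j, by simp⟩

/-- the period function `E f ∣ γ - E f`. -/
def perFun (γ : SL(2, ℤ)) : CuspForm (Gamma0 N) ((n : ℤ) + 2) →ₗ[ℂ] (ℍ → ℂ) :=
  slashL (-(n : ℤ)) (mapGL ℝ γ) (det_mapGL_pos γ) ∘ₗ eichL N n - eichL N n

theorem perFun_apply (γ : SL(2, ℤ)) (f : CuspForm (Gamma0 N) ((n : ℤ) + 2)) :
    perFun N n γ f = eich N n f ∣[-(n : ℤ)] (mapGL ℝ γ) - eich N n f := rfl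

/-- a linear left inverse of `polyFun`. -/
def polyInv : (ℍ → ℂ) →ₗ[ℂ] ℂ[X] :=
  (LinearMap.exists_leftInverse_of_injective polyFun
    (LinearMap.ker_eq_bot.mpr polyFun_injective)).choose

theorem polyInv_polyFun (P : ℂ[X]) : polyInv (polyFun P) = P :=
  LinearMap.congr_fun (LinearMap.exists_leftInverse_of_injective polyFun
    (LinearMap.ker_eq_bot.mpr polyFun_injective)).choose_spec P

/-- the period polynomial. -/
def perPoly (γ : SL(2, ℤ)) : CuspForm (Gamma0 N) ((n : ℤ) + 2) →ₗ[ℂ] ℂ[X] :=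
  polyInv ∘ₗ perFun N n γ

variable {N n}

omit [NeZero N] in
theorem slash_eq_self {γ : SL(2, ℤ)} (hγ : γ ∈ Gamma0 N)
    (f : CuspForm (Gamma0 N) ((n : ℤ) + 2)) : (f : ℍ → ℂ) ∣[(n : ℤ) + 2] (mapGL ℝ γ) = f :=
  SlashInvariantFormClass.slash_action_eq f (mapGL ℝ γ) (Subgroup.mem_map_of_mem _ hγ)

theorem exists_poly_perFun {γ : SL(2, ℤ)} (hγ : γ ∈ Gamma0 N)
    (f : CuspForm (Gamma0 N) ((n : ℤ) + 2)) :
    ∃ P : ℂ[X], P.degree < (n + 1 : ℕ) ∧ perFun N n γ f = polyFun P := by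
  have hE := (eich_cuspLike N n f).mdiff
  refine exists_poly_of_iterD_eq_zero (n + 1) ((hE.slash _ _).sub hE) ?_
  rw [perFun_apply, iterD_sub (hE.slash _ _) hE, bol n (det_mapGL_pos γ) hE, iterD_eich, det_mapGL,
    slash_eq_self hγ]
  simp

theorem polyFun_perPoly {γ : SL(2, ℤ)} (hγ : γ ∈ Gamma0 N)
    (f : CuspForm (Gamma0 N) ((n : ℤ) + 2)) :
    polyFun (perPoly N n γ f) = perFun N n γ f := by
  obtain ⟨P, -, hP⟩ := exists_poly_perFun hγ f
  rw [perPoly, LinearMap.comp_apply, hP, polyInv_polyFun]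

theorem degree_perPoly {γ : SL(2, ℤ)} (hγ : γ ∈ Gamma0 N)
    (f : CuspForm (Gamma0 N) ((n : ℤ) + 2)) :
    (perPoly N n γ f).degree < (n + 1 : ℕ) := by
  obtain ⟨P, hd, hP⟩ := exists_poly_perFun hγ f
  rw [perPoly, LinearMap.comp_apply, hP, polyInv_polyFun]
  exact hd

theorem perFun_mul (γ₁ γ₂ : SL(2, ℤ)) (f : CuspForm (Gamma0 N) ((n : ℤ) + 2)) :
    perFun N n (γ₁ * γ₂) f = (perFun N n γ₁ f) ∣[-(n : ℤ)] (mapGL ℝ γ₂) + perFun N n γ₂ f := by
  simp only [perFun_apply, map_mul, SlashAction.slash_mul, sub_slash]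
  abel

theorem perPoly_one (f : CuspForm (Gamma0 N) ((n : ℤ) + 2)) : perPoly N n 1 f = 0 := by
  have : perFun N n 1 f = 0 := by
    simp [perFun_apply]
  rw [perPoly, LinearMap.comp_apply, this, map_zero]

/-- the cocycle relation. -/
theorem perPoly_mul {γ₁ γ₂ : SL(2, ℤ)} (h₁ : γ₁ ∈ Gamma0 N) (h₂ : γ₂ ∈ Gamma0 N)
    (f : CuspForm (Gamma0 N) ((n : ℤ) + 2)) :
    perPoly N n (γ₁ * γ₂) f = actC n (mapGL ℝ γ₂) (perPoly N n γ₁ f) + perPoly N n γ₂ f := by
  apply polyFun_injective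
  rw [polyFun_perPoly (mul_mem h₁ h₂), perFun_mul, map_add, polyFun_perPoly h₂,
    ← polyFun_perPoly h₁, polyFun_slash n (det_mapGL_pos γ₂) (degree_perPoly h₁ f), det_mapGL]
  simp

variable (N n)

/-- the period functionals. -/
def lam (γ : SL(2, ℤ)) (j : ℕ) : Module.Dual ℂ (CuspForm (Gamma0 N) ((n : ℤ) + 2)) :=
  Polynomial.lcoeff ℂ j ∘ₗ perPoly N n γ

theorem lam_apply (γ : SL(2, ℤ)) (j : ℕ) (f : CuspForm (Gamma0 N) ((n : ℤ) + 2)) :
    lam N n γ j f = (perPoly N n γ f).coeff j := rfl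

/-- the period lattice. -/
def perLattice : Submodule ℤ (Module.Dual ℂ (CuspForm (Gamma0 N) ((n : ℤ) + 2))) :=
  Submodule.span ℤ {φ | ∃ γ ∈ Gamma0 N, ∃ j : ℕ, φ = lam N n γ j}

variable {N n}

theorem lam_mem_perLattice {γ : SL(2, ℤ)} (hγ : γ ∈ Gamma0 N) (j : ℕ) :
    lam N n γ j ∈ perLattice N n :=
  Submodule.subset_span ⟨γ, hγ, j, rfl⟩

theorem lam_eq_zero_of_lt {γ : SL(2, ℤ)} (hγ : γ ∈ Gamma0 N) {j : ℕ} (hj : n < j) :
    lam N n γ j = 0 := by
  ext f
  rw [lam_apply]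
  refine Polynomial.coeff_eq_zero_of_degree_lt (lt_of_lt_of_le (degree_perPoly hγ f) ?_)
  exact_mod_cast hj

end

end Fermat.Agent.S22Main
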