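import Mathlib
import Fermat.Agent.S22.Main.Eichler

set_option autoImplicit false

/-! The period lattice is finitely generated and stable under Hecke type operators. -/

namespace Fermat.Agent.S22Main

open UpperHalfPlane Derivative Filter Function Polynomial Matrix.SpecialLinearGroup
open CongruenceSubgroup
open scoped ModularForm Manifold MatrixGroups Topology

noncomputable section

variable {N : ℕ} [NeZero N] {n : ℕ}

theorem lam_one (j : ℕ) : lam N n 1 j = 0 := by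
  ext f
  rw [lam_apply, perPoly_one]
  simp

theorem lam_mul {γ₁ γ₂ : SL(2, ℤ)} (h₁ : γ₁ ∈ Gamma0 N) (h₂ : γ₂ ∈ Gamma0 N) :
    ∃ A : ℕ → ℕ → ℤ, ∀ i : ℕ, lam N n (γ₁ * γ₂) i =
      ∑ j ∈ Finset.range (n + 1), A i j • lam N n γ₁ j + lam N n γ₂ i := by
  obtain ⟨A, hA⟩ := actC_coeff_int n (intEntries_mapGL γ₂)
  refine ⟨A, fun i => ?_⟩
  ext f
  rw [lam_apply, perPoly_mul h₁ h₂, Polynomial.coeff_add, hA]
  simp [lam_apply, LinearMap.sum_apply]

instance : Group.FG SL(2, ℤ) :=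
  ⟨⟨{ModularGroup.S, ModularGroup.T}, by
    simpa using SpecialLinearGroup.SL2Z_generators⟩⟩

theorem perLattice_fg : (perLattice N n).FG := by
  classical
  have : Group.FG (Gamma0 N) := Subgroup.fg_of_index_ne_zero _
  have : Monoid.FG (Gamma0 N) := Group.fg_iff_monoid_fg.mp inferInstance
  obtain ⟨S₀, hS₀⟩ := (Monoid.fg_def (M := Gamma0 N)).mp inferInstance
  set gens : Set (Module.Dual ℂ (CuspForm (Gamma0 N) ((n : ℤ) + 2))) :=
    (fun x : (Gamma0 N) × ℕ => lam N n x.1 x.2) '' (↑S₀ ×ˢ ↑(Finset.range (n + 1))) with hgens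
  have hfin : gens.Finite := (S₀.finite_toSet.prod (Finset.finite_toSet _)).image _
  have key : ∀ γ : Gamma0 N, ∀ j : ℕ, lam N n γ j ∈ Submodule.span ℤ gens := by
    intro γ
    have hγ : γ ∈ Submonoid.closure (S₀ : Set (Gamma0 N)) := by rw [hS₀]; trivial
    induction hγ using Submonoid.closure_induction with
    | mem x hx =>
      intro j
      by_cases hj : n < j
      · rw [lam_eq_zero_of_lt x.2 hj]; exact zero_mem _
      · refine Submodule.subset_span ⟨(x, j), ⟨hx, ?_⟩, rfl⟩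
        simpa using Nat.lt_succ_iff.mpr (not_lt.mp hj)
    | one =>
      intro j
      rw [OneMemClass.coe_one, lam_one]; exact zero_mem _
    | mul x y _ _ hx hy =>
      intro i
      obtain ⟨A, hA⟩ := lam_mul (n := n) x.2 y.2
      rw [MulMemClass.coe_mul, hA]
      exact add_mem (Submodule.sum_mem _ fun j _ => Submodule.smul_mem _ _ (hx j)) (hy i)
  have heq : perLattice N n = Submodule.span ℤ gens := by
    apply le_antisymm
    · refine Submodule.span_le.mpr ?_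
      rintro _ ⟨γ, hγ, j, rfl⟩
      exact key ⟨γ, hγ⟩ j
    · refine Submodule.span_le.mpr ?_
      rintro _ ⟨⟨γ, j⟩, -, rfl⟩
      exact lam_mem_perLattice γ.2 j
  rw [heq]
  exact Submodule.fg_span hfin

section Hecke

variable {ι : Type*} [Fintype ι] (δ : ι → GL (Fin 2) ℝ) (p : ℝ)

theorem eich_hecke (hp : 0 < p) (hdet : ∀ x, (δ x).val.det = p) (hup : ∀ x, δ x 1 0 = 0)
    (t : Module.End ℂ (CuspForm (Gamma0 N) ((n : ℤ) + 2)))
    (ht : ∀ f, ⇑(t f) = ∑ x, (f : ℍ → ℂ) ∣[(n : ℤ) + 2] δ x)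
    (f : CuspForm (Gamma0 N) ((n : ℤ) + 2)) :
    eich N n (t f) = ((p : ℂ) ^ (n + 1)) • ∑ x, eich N n f ∣[-(n : ℤ)] δ x := by
  have hE := (eich_cuspLike N n f).mdiff
  have hpC : (p : ℂ) ≠ 0 := Complex.ofReal_ne_zero.mpr hp.ne'
  have hm : ∀ x ∈ (Finset.univ : Finset ι), MDiff (eich N n f ∣[-(n : ℤ)] δ x) :=
    fun x _ => hE.slash _ _
  refine eq_of_iterD_eq (eich_cuspLike N n _).mdiff ((mdiff_sum _ hm).const_smul _)
    (eich_cuspLike N n _).zero
    (isZero_smul _ (isZero_sum _ fun x _ => (eich_cuspLike N n f).zero.slash _ (hup x)))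
    (n + 1) ?_
  rw [iterD_eich, ht, iterD_smul _ (mdiff_sum _ hm), iterD_sum _ hm, Finset.smul_sum]
  refine Finset.sum_congr rfl fun x _ => ?_
  rw [bol n (by rw [hdet]; exact hp) hE, iterD_eich, hdet, smul_smul, ← mul_pow,
    mul_inv_cancel₀ hpC, one_pow, one_smul]

theorem perPoly_hecke (hp : 0 < p) (hdet : ∀ x, (δ x).val.det = p) (hup : ∀ x, δ x 1 0 = 0)
    (t : Module.End ℂ (CuspForm (Gamma0 N) ((n : ℤ) + 2)))
    (ht : ∀ f, ⇑(t f) = ∑ x, (f : ℍ → ℂ) ∣[(n : ℤ) + 2] δ x)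
    {γ : SL(2, ℤ)} (hγ : γ ∈ Gamma0 N) (π : Equiv.Perm ι) (γ' : ι → SL(2, ℤ))
    (hγ' : ∀ x, γ' x ∈ Gamma0 N) (hmul : ∀ x, δ x * mapGL ℝ γ = mapGL ℝ (γ' x) * δ (π x))
    (f : CuspForm (Gamma0 N) ((n : ℤ) + 2)) :
    perPoly N n γ (t f) = ∑ x, actC n (δ (π x)) (perPoly N n (γ' x) f) := by
  have hpC : (p : ℂ) ≠ 0 := Complex.ofReal_ne_zero.mpr hp.ne'
  apply polyFun_injective
  rw [polyFun_perPoly hγ, perFun_apply, eich_hecke δ p hp hdet hup t ht, ModularForm.smul_slash,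
    σ_of_det_pos (det_mapGL_pos γ), SlashAction.sum_slash, ← smul_sub, map_sum,
    ← Equiv.sum_comp π (fun x => eich N n f ∣[-(n : ℤ)] δ x), ← Finset.sum_sub_distrib,
    Finset.smul_sum]
  refine Finset.sum_congr rfl fun x _ => ?_
  rw [← SlashAction.slash_mul, hmul, SlashAction.slash_mul, ← sub_slash, ← perFun_apply,
    ← polyFun_perPoly (hγ' x),
    polyFun_slash n (by rw [hdet]; exact hp) (degree_perPoly (hγ' x) f), hdet, smul_smul,
    ← mul_pow, mul_inv_cancel₀ hpC, one_pow, one_smul]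

theorem comp_mem_perLattice (hp : 0 < p) (hdet : ∀ x, (δ x).val.det = p)
    (hint : ∀ x, IntEntries (δ x)) (hup : ∀ x, δ x 1 0 = 0)
    (hperm : ∀ γ ∈ Gamma0 N, ∃ π : Equiv.Perm ι, ∀ x, ∃ γ' ∈ Gamma0 N,
      δ x * mapGL ℝ γ = mapGL ℝ γ' * δ (π x))
    (t : Module.End ℂ (CuspForm (Gamma0 N) ((n : ℤ) + 2)))
    (ht : ∀ f, ⇑(t f) = ∑ x, (f : ℍ → ℂ) ∣[(n : ℤ) + 2] δ x)
    {φ : Module.Dual ℂ (CuspForm (Gamma0 N) ((n : ℤ) + 2))} (hφ : φ ∈ perLattice N n) :
    φ ∘ₗ t ∈ perLattice N n := by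
  induction hφ using Submodule.span_induction with
  | mem φ hφ =>
    obtain ⟨γ, hγ, i, rfl⟩ := hφ
    obtain ⟨π, hπ⟩ := hperm γ hγ
    choose γ' hγ' hmul using hπ
    choose A hA using fun x => actC_coeff_int n (hint (π x))
    have : lam N n γ i ∘ₗ t =
        ∑ x, ∑ j ∈ Finset.range (n + 1), A x i j • lam N n (γ' x) j := by
      ext f
      rw [LinearMap.comp_apply, lam_apply, perPoly_hecke δ p hp hdet hup t ht hγ π γ' hγ' hmul,
        Polynomial.finsetSum_coeff]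
      simp [lam_apply, LinearMap.sum_apply, hA]
    rw [this]
    exact Submodule.sum_mem _ fun x _ => Submodule.sum_mem _ fun j _ =>
      Submodule.smul_mem _ _ (lam_mem_perLattice (hγ' x) j)
  | zero => rw [LinearMap.zero_comp]; exact zero_mem _
  | add φ ψ _ _ h₁ h₂ => rw [LinearMap.add_comp]; exact add_mem h₁ h₂
  | smul a φ _ h => rw [LinearMap.smul_comp]; exact Submodule.smul_mem _ _ h

end Hecke

end

end Fermat.Agent.S22Main
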