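import Mathlib
import Fermat.Prelude.Thm_Subgroup_IsArithmetic_exists_nat_mem_strictPeriods_conj
import Fermat.Agent.S22.Main.Eichler

set_option autoImplicit false

/-! The period lattice separates cusp forms. -/

namespace Fermat.Agent.S22Main

open UpperHalfPlane Derivative Filter Function Polynomial Matrix.SpecialLinearGroup
open CongruenceSubgroup
open scoped ModularForm Manifold MatrixGroups Topology Pointwise

noncomputable section

variable {N : ℕ} [NeZero N] {n : ℕ}

theorem const_of_nonpos_weight {Γ : Subgroup (GL (Fin 2) ℝ)} [Γ.IsArithmetic] {k : ℤ} (hk : k ≤ 0)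
    (F : ModularForm Γ k) : ∃ c : ℂ, (F : ℍ → ℂ) = Function.const ℍ c := by
  rcases hk.lt_or_eq with h | rfl
  · refine ⟨0, ?_⟩
    rw [ModularForm.isZero_of_neg_weight h F]
    rfl
  · exact ModularForm.eq_const_of_weight_zero F

theorem iterD_const (c : ℂ) (m : ℕ) : D^[m + 1] (Function.const ℍ c) = 0 := by
  rw [Function.iterate_succ_apply]
  have : D (Function.const ℍ c) = 0 := normalizedDerivOfComplex_const c
  rw [this, iterD_zero]

/-- boundedness of the translates of an invariant Eichler integral. -/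
theorem isBounded_eich_slash (f : CuspForm (Gamma0 N) ((n : ℤ) + 2))
    (hinv : ∀ γ ∈ (Gamma0 N : Subgroup (GL (Fin 2) ℝ)), eich N n f ∣[-(n : ℤ)] γ = eich N n f)
    (σ : SL(2, ℤ)) : IsBoundedAtImInfty (eich N n f ∣[-(n : ℤ)] (mapGL ℝ σ)) := by
  obtain ⟨M, hM, hper⟩ := Subgroup.IsArithmetic.exists_nat_mem_strictPeriods_conj
    (Gamma0 N : Subgroup (GL (Fin 2) ℝ))
  have hMσ : (M : ℝ) ∈ (ConjAct.toConjAct (mapGL ℝ σ)⁻¹ •
      (Gamma0 N : Subgroup (GL (Fin 2) ℝ))).strictPeriods := by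
    have := hper σ⁻¹
    rwa [map_inv] at this
  have hM' : (0 : ℝ) < M := by exact_mod_cast hM
  have hE := (eich_cuspLike N n f).mdiff
  -- the translated cusp form
  set g := CuspForm.translate f (mapGL ℝ σ) with hg
  have hgcoe : (g : ℍ → ℂ) = (f : ℍ → ℂ) ∣[(n : ℤ) + 2] (mapGL ℝ σ) := rfl
  have : Fact (IsCusp OnePoint.infty (ConjAct.toConjAct (mapGL ℝ σ)⁻¹ •
      (Gamma0 N : Subgroup (GL (Fin 2) ℝ)))) := ⟨Subgroup.isCusp_of_mem_strictPeriods hM' hMσ⟩
  have hgc : CuspLike M g :=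
    ⟨CuspFormClass.holo g, SlashInvariantFormClass.periodic_comp_ofComplex g hMσ,
      CuspFormClass.zero_at_infty g⟩
  obtain ⟨G, hG, hDG⟩ := CuspLike.exists_iter_primitive hM' (n + 1) hgc
  -- the translated Eichler integral
  let 𝔉 : SlashInvariantForm (Gamma0 N : Subgroup (GL (Fin 2) ℝ)) (-(n : ℤ)) :=
    { toFun := eich N n f
      slash_action_eq' := hinv }
  set H := SlashInvariantForm.translate 𝔉 (mapGL ℝ σ) with hH
  have hHcoe : (H : ℍ → ℂ) = eich N n f ∣[-(n : ℤ)] (mapGL ℝ σ) := rfl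
  have hHper : Function.Periodic ((H : ℍ → ℂ) ∘ ofComplex) M :=
    SlashInvariantFormClass.periodic_comp_ofComplex H hMσ
  have hHm : MDiff (H : ℍ → ℂ) := by rw [hHcoe]; exact hE.slash _ _
  have hDH : D^[n + 1] (H : ℍ → ℂ) = g := by
    rw [hHcoe, bol n (det_mapGL_pos σ) hE, iterD_eich, det_mapGL, hgcoe]
    simp
  have h0 : D^[n + 1] ((H : ℍ → ℂ) - G) = 0 := by
    rw [iterD_sub hHm hG.mdiff, hDH, hDG, sub_self]
  obtain ⟨P, -, hP⟩ := exists_poly_of_iterD_eq_zero (n + 1) (hHm.sub hG.mdiff) h0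
  have hPper : Function.Periodic (polyFun P ∘ ofComplex) M := by
    rw [← hP]
    exact hHper.sub hG.per
  have hPC := poly_eq_C_of_periodic hM' hPper
  have hsum : eich N n f ∣[-(n : ℤ)] (mapGL ℝ σ) = G + Function.const ℍ (P.coeff 0) := by
    rw [← hHcoe]
    have : (H : ℍ → ℂ) = G + polyFun P := by rw [← hP]; abel
    rw [this, hPC]
    ext τ
    simp
  rw [hsum]
  exact hG.zero.isBoundedAtImInfty.add (Filter.const_boundedAtFilter _ _)

theorem eq_zero_of_forall_perLattice (f : CuspForm (Gamma0 N) ((n : ℤ) + 2))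
    (h : ∀ φ ∈ perLattice N n, φ f = 0) : f = 0 := by
  have hE := (eich_cuspLike N n f).mdiff
  have hinv : ∀ γ ∈ (Gamma0 N : Subgroup (GL (Fin 2) ℝ)),
      eich N n f ∣[-(n : ℤ)] γ = eich N n f := by
    rintro _ ⟨γ, hγ, rfl⟩
    have h1 : perPoly N n γ f = 0 := by
      ext j
      simpa [lam_apply] using h _ (lam_mem_perLattice hγ j)
    have h2 := polyFun_perPoly hγ f
    rw [h1, map_zero, perFun_apply] at h2
    exact (sub_eq_zero.mp h2.symm)
  let 𝔐 : ModularForm (Gamma0 N : Subgroup (GL (Fin 2) ℝ)) (-(n : ℤ)) :=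
    { toFun := eich N n f
      slash_action_eq' := hinv
      holo' := hE
      bdd_at_cusps' := fun {c} hc => by
        have hc' := (Subgroup.IsArithmetic.isCusp_iff_isCusp_SL2Z _).mp hc
        exact (OnePoint.isBoundedAt_iff_forall_SL2Z hc').mpr
          fun σ _ => isBounded_eich_slash f hinv σ }
  obtain ⟨c, hc⟩ := const_of_nonpos_weight (by simp) 𝔐
  have hc' : eich N n f = Function.const ℍ c := hc
  have h3 := iterD_eich N n f
  rw [hc', iterD_const] at h3
  exact DFunLike.coe_injective h3.symm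

end

end Fermat.Agent.S22Main
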