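import Mathlib
import Fermat.Prelude.Def_CuspForm_HeckeAlgebra
import Fermat.Agent.S22.Main.Lattice
import Fermat.Agent.S22.Main.Separate

set_option autoImplicit false

/-! Finiteness of the Hecke algebra. -/

namespace Fermat.Agent.S22Main

open UpperHalfPlane Derivative Filter Function Polynomial Matrix.SpecialLinearGroup
open CongruenceSubgroup
open scoped ModularForm Manifold MatrixGroups Topology Pointwise
open P2MW.S_ModularForm_heckeT_slash_eq_self_of_mem_Gamma0.ModularForm.HeckeSlashInvariance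

noncomputable section

/-- abstract finiteness criterion: a finitely generated stable separating lattice of functionals. -/
theorem finite_adjoin_of_lattice {V : Type*} [AddCommGroup V] [Module ℂ V]
    (𝒢 : Set (Module.End ℂ V)) (M : Submodule ℤ (Module.Dual ℂ V)) (hfg : M.FG)
    (hst : ∀ t ∈ 𝒢, ∀ φ ∈ M, φ ∘ₗ t ∈ M) (hsep : ∀ f : V, (∀ φ ∈ M, φ f = 0) → f = 0) :
    Module.Finite ℤ (Algebra.adjoin ℤ 𝒢) := by
  have hst' : ∀ t ∈ Algebra.adjoin ℤ 𝒢, ∀ φ ∈ M, φ ∘ₗ t ∈ M := by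
    intro t ht
    induction ht using Algebra.adjoin_induction with
    | mem t ht => exact hst t ht
    | algebraMap r =>
      intro φ hφ
      have : φ ∘ₗ (algebraMap ℤ (Module.End ℂ V) r) = r • φ := by
        ext f
        simp
      rw [this]
      exact Submodule.smul_mem _ _ hφ
    | add s t _ _ hs ht =>
      intro φ hφ
      rw [LinearMap.comp_add]
      exact add_mem (hs φ hφ) (ht φ hφ)
    | mul s t _ _ hs ht =>
      intro φ hφ
      have : φ ∘ₗ (s * t) = (φ ∘ₗ s) ∘ₗ t := rfl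
      rw [this]
      exact ht _ (hs φ hφ)
  have : Module.Finite ℤ M := Module.Finite.iff_fg.mpr hfg
  have : IsAddTorsionFree (Module.Dual ℂ V) := .of_isTorsionFree ℂ _
  have : Module.Free ℤ M := Module.free_of_finite_type_torsion_free'
  let Φ : (Algebra.adjoin ℤ 𝒢) →ₗ[ℤ] (M →ₗ[ℤ] M) :=
    { toFun := fun t =>
        { toFun := fun φ => ⟨(φ : Module.Dual ℂ V) ∘ₗ (t : Module.End ℂ V), hst' t t.2 φ φ.2⟩
          map_add' := fun φ ψ => Subtype.ext (by simp [LinearMap.add_comp])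
          map_smul' := fun a φ => Subtype.ext (by simp [LinearMap.smul_comp]) }
      map_add' := fun s t => LinearMap.ext fun φ => Subtype.ext (by simp [LinearMap.comp_add])
      map_smul' := fun a t => LinearMap.ext fun φ => Subtype.ext (by
        ext f
        simp [map_zsmul]) }
  refine Module.Finite.of_injective Φ ?_
  rw [injective_iff_map_eq_zero]
  intro t ht
  apply Subtype.ext
  ext f
  apply hsep
  intro φ hφ
  have := congrArg (fun L : M →ₗ[ℤ] M => ((L ⟨φ, hφ⟩ : M) : Module.Dual ℂ V) f) ht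
  simpa [Φ] using this

variable {N : ℕ} [NeZero N] {n : ℕ}

theorem val_det_heckeMatrix {p : ℕ} (hp : p ≠ 0) (j : ℕ) :
    (ModularForm.heckeMatrix p j).val.det = (p : ℝ) := by
  rw [← Matrix.GeneralLinearGroup.val_det_apply]
  exact ModularForm.det_heckeMatrix hp j

theorem val_det_heckeDiagMatrix {p : ℕ} (hp : p ≠ 0) :
    (ModularForm.heckeDiagMatrix p).val.det = (p : ℝ) := by
  rw [← Matrix.GeneralLinearGroup.val_det_apply]
  exact ModularForm.det_heckeDiagMatrix hp

theorem intEntries_heckeMatrix {p : ℕ} (hp : p ≠ 0) (j : ℕ) :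
    IntEntries (ModularForm.heckeMatrix p j) := by
  intro a b
  rw [ModularForm.val_heckeMatrix hp]
  fin_cases a <;> fin_cases b
  · exact ⟨1, by simp⟩
  · exact ⟨j, by simp⟩
  · exact ⟨0, by simp⟩
  · exact ⟨p, by simp⟩

theorem intEntries_heckeDiagMatrix {p : ℕ} (hp : p ≠ 0) :
    IntEntries (ModularForm.heckeDiagMatrix p) := by
  intro a b
  rw [ModularForm.val_heckeDiagMatrix hp]
  fin_cases a <;> fin_cases b
  · exact ⟨p, by simp⟩
  · exact ⟨0, by simp⟩
  · exact ⟨0, by simp⟩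
  · exact ⟨1, by simp⟩

theorem heckeTLin_stable {ℓ : ℕ} (hℓ : ℓ.Prime) (hℓN : ¬ ℓ ∣ N)
    {φ : Module.Dual ℂ (CuspForm (Gamma0 N) ((n : ℤ) + 2))} (hφ : φ ∈ perLattice N n) :
    φ ∘ₗ CuspForm.heckeTLin ((n : ℤ) + 2) hℓ hℓN ∈ perLattice N n := by
  have : Fact ℓ.Prime := ⟨hℓ⟩
  have h0 : ℓ ≠ 0 := hℓ.ne_zero
  refine comp_mem_perLattice (heckeRep ℓ) (ℓ : ℝ) (by exact_mod_cast hℓ.pos) ?_ ?_ ?_ ?_ _ ?_ hφ
  · intro x
    induction x using OnePoint.rec with
    | infty => exact val_det_heckeDiagMatrix h0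
    | coe j => exact val_det_heckeMatrix h0 _
  · intro x
    induction x using OnePoint.rec with
    | infty => exact intEntries_heckeDiagMatrix h0
    | coe j => exact intEntries_heckeMatrix h0 _
  · intro x
    induction x using OnePoint.rec with
    | infty =>
      show (ModularForm.heckeDiagMatrix ℓ).val 1 0 = 0
      rw [ModularForm.val_heckeDiagMatrix h0]; simp
    | coe j =>
      show (ModularForm.heckeMatrix ℓ j.val).val 1 0 = 0
      rw [ModularForm.val_heckeMatrix h0]; simp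
  · intro γ hγ
    have hcN : (N : ℤ) ∣ γ 1 0 :=
      (ZMod.intCast_zmod_eq_zero_iff_dvd _ _).mp (Gamma0_mem.mp hγ)
    refine ⟨MulAction.toPerm (redMatrix ℓ γ), fun x => ?_⟩
    obtain ⟨g', hg', hmul⟩ := heckeRep_mul hℓN γ hcN x
    exact ⟨g', Gamma0_mem.mpr ((ZMod.intCast_zmod_eq_zero_iff_dvd _ _).mpr hg'), hmul⟩
  · intro f
    rw [CuspForm.coe_heckeTLin_apply, heckeT_eq_sum_onePoint]

theorem heckeULin_stable {q : ℕ} (hq : q.Prime) (hqN : q ∣ N)
    {φ : Module.Dual ℂ (CuspForm (Gamma0 N) ((n : ℤ) + 2))} (hφ : φ ∈ perLattice N n) :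
    φ ∘ₗ CuspForm.heckeULin ((n : ℤ) + 2) hqN ∈ perLattice N n := by
  have : NeZero q := ⟨hq.ne_zero⟩
  have h0 : q ≠ 0 := hq.ne_zero
  refine comp_mem_perLattice (fun x : ZMod q => ModularForm.heckeMatrix q x.val) (q : ℝ)
    (by exact_mod_cast hq.pos) ?_ ?_ ?_ ?_ _ ?_ hφ
  · intro x
    exact val_det_heckeMatrix h0 _
  · intro x
    exact intEntries_heckeMatrix h0 _
  · intro x
    show (ModularForm.heckeMatrix q x.val).val 1 0 = 0
    rw [ModularForm.val_heckeMatrix h0]; simp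
  · intro γ hγ
    have hcN : (N : ℤ) ∣ γ 1 0 :=
      (ZMod.intCast_zmod_eq_zero_iff_dvd _ _).mp (Gamma0_mem.mp hγ)
    have hc : (q : ℤ) ∣ γ 1 0 := (Int.natCast_dvd_natCast.mpr hqN).trans hcN
    refine ⟨affinePerm γ ((ZMod.intCast_zmod_eq_zero_iff_dvd _ _).mpr hc), fun x => ?_⟩
    obtain ⟨g', hg', hmul⟩ := heckeMatrix_mul_of_dvd γ hc x
    refine ⟨g', ?_, hmul⟩
    rw [Gamma0_mem, hg']
    push_cast
    rw [Gamma0_mem.mp hγ, mul_zero]
  · intro f
    rw [CuspForm.coe_heckeULin_apply, heckeU_eq_sum_zmod]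

theorem finite_heckeAlgebra_of_two_le (N : ℕ) [NeZero N] (n : ℕ) (S : Set ℕ) :
    Module.Finite ℤ (CuspForm.heckeAlgebra N ((n : ℤ) + 2) S) := by
  refine finite_adjoin_of_lattice _ (perLattice N n) perLattice_fg ?_
    eq_zero_of_forall_perLattice
  rintro t (⟨ℓ, hℓ, hℓN, -, rfl⟩ | ⟨q, hqN, hq, -, rfl⟩) φ hφ
  · exact heckeTLin_stable hℓ hℓN hφ
  · exact heckeULin_stable hq hqN hφ

theorem cuspForm_eq_zero_of_le_one (N : ℕ) [NeZero N] {k : ℤ} (hk : k ≤ 1)
    (f : CuspForm (Gamma0 N) k) : f = 0 := by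
  rcases hk.lt_or_eq with h | rfl
  · obtain ⟨c, hc⟩ := const_of_nonpos_weight (Int.lt_add_one_iff.mp (by simpa using h))
      (ModularFormClass.modularForm f)
    have hc' : (f : ℍ → ℂ) = Function.const ℍ c := hc
    have hz : IsZeroAtImInfty (f : ℍ → ℂ) := CuspFormClass.zero_at_infty f
    rw [hc'] at hz
    have : c = 0 := tendsto_nhds_unique tendsto_const_nhds hz
    apply DFunLike.coe_injective
    rw [hc', this]
    rfl
  · have hmem : (-1 : GL (Fin 2) ℝ) ∈ (Gamma0 N : Subgroup (GL (Fin 2) ℝ)) := by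
      refine ⟨-1, ?_, ?_⟩
      · simp [Gamma0_mem]
      · ext i j
        fin_cases i <;> fin_cases j <;> simp
    have := ModularForm.eq_zero_of_neg_one_mem hmem odd_one (ModularFormClass.modularForm f)
    apply DFunLike.coe_injective
    exact congrArg (fun F : ModularForm _ _ => (F : ℍ → ℂ)) this

theorem finite_heckeAlgebra (N : ℕ) [NeZero N] (k : ℤ) (S : Set ℕ) :
    Module.Finite ℤ (CuspForm.heckeAlgebra N k S) := by
  by_cases hk : 2 ≤ k
  · obtain ⟨n, hn⟩ := Int.eq_ofNat_of_zero_le (sub_nonneg.mpr hk)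
    obtain rfl : k = (n : ℤ) + 2 := by omega
    exact finite_heckeAlgebra_of_two_le N n S
  · have hk' : k ≤ 1 := by omega
    have : Subsingleton (CuspForm (Gamma0 N) k) :=
      ⟨fun f g => by rw [cuspForm_eq_zero_of_le_one N hk' f, cuspForm_eq_zero_of_le_one N hk' g]⟩
    have : Subsingleton (Module.End ℂ (CuspForm (Gamma0 N) k)) :=
      ⟨fun s t => LinearMap.ext fun f => Subsingleton.elim _ _⟩
    have : Subsingleton (CuspForm.heckeAlgebra N k S) :=
      ⟨fun s t => Subtype.ext (Subsingleton.elim _ _)⟩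
    infer_instance

end

end Fermat.Agent.S22Main
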